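-- Statement S22 (row 21): the Hecke algebra of cusp forms is a finitely generated ℤ-module.
-- Proof: Eichler integrals and period polynomials give a finitely generated, Hecke-stable,
-- point-separating ℤ-lattice in the dual of the space of cusp forms (Eichler–Shimura).
import Fermat.Statements.S22
import Fermat.Agent.S22.AbstractFinite
import Fermat.Agent.S22.TrivialWeights
import Fermat.Agent.S22.Eichler
import Fermat.Agent.S22.EichlerSeparation
import Fermat.Agent.S22.HeckeFinal

set_option autoImplicit false
open CuspForm

namespace Fermat.Agent.S22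

theorem result (N : ℕ) [NeZero N] (k : ℤ) (S : Set ℕ) :
    Module.Finite ℤ (CuspForm.heckeAlgebra N k S) := by
  rcases lt_or_ge k 2 with hk | hk
  · refine finite_heckeAlgebra_of_forall_eq_zero N k S fun f => ?_
    rcases le_or_gt k 0 with h0 | h0
    · exact cuspForm_eq_zero_of_nonpos N h0 f
    · have hk1 : k = 1 := by omega
      exact cuspForm_eq_zero_of_odd N (hk1 ▸ odd_one) f
  · obtain ⟨w, rfl⟩ : ∃ w : ℕ, k = (w : ℤ) + 2 := ⟨(k - 2).toNat, by omega⟩
    exact finite_adjoin_of_stable_lattice (CuspForm.heckeGenerators N ((w : ℤ) + 2) S)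
      (periodLatticeGamma0 N w) (periodLatticeGamma0_fg N w)
      (Sep.eq_zero_of_periodLattice_zero N w) (periodLatticeGamma0_stable N w S)

end Fermat.Agent.S22
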