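-- Statement S20 (row 19): dim S₂(Γ₀(N)) = genusFormula N, via the M2F free-module route
-- (helper3's Final/Assemble + F4 RankLower, F6 Invertible, F8(c) CuspB).
import Fermat.Statements.S20
import Fermat.Agent.M2F.Assemble
import Fermat.Agent.M2F.RankLower
import Fermat.Agent.M2F.Invertible
import Fermat.Agent.M2F.CuspB

set_option autoImplicit false
open CuspForm

namespace Fermat.Agent.S20

open Fermat.Agent.M2F in
open scoped Classical in
theorem result (N : ℕ) [NeZero N] :
    (Module.finrank ℂ (CuspForm (CongruenceSubgroup.Gamma0 N) 2) : ℚ) = ModularCurve.genusFormula N :=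
  Final.finrank_cuspForm_two N
    (Assemble.inputs N (RankLower.exists_forms_det_ne_zero N)
      (fun hb z => Invertible.det_Phi_ne_zero hb z)
      (fun hb => CuspB.sum_weights hb)
      (fun hb q j => CuspB.isZeroAtImInfty_discriminant_mul_inv hb q j))

end Fermat.Agent.S20
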