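-- Statement S21 (row 20): Eichler–Shimura for the period map of level N, from S20 via helper11's ES block.
import Fermat.Statements.S21
import Fermat.Agent.S20
import Fermat.Agent.M2.ES.Final

set_option autoImplicit false
open ModularCurve

namespace Fermat.Agent.S21

theorem result (N : ℕ) [NeZero N] :
    Function.Injective (ModularCurve.periodHomPair N)
      ∧ LinearMap.range (ModularCurve.periodHomPair N)
          = ModularCurve.Period.parabolicHoms ℂ (CongruenceSubgroup.Gamma0 N) ℂ :=
  Fermat.Agent.M2.ES.Final.s21_of_s20 N (Fermat.Agent.S20.result N)

end Fermat.Agent.S21
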