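-- Statement S02 (FreyPackage.of_counterexample): elementary reduction.
import Fermat.Statements.S02

set_option autoImplicit false
open FreyPackage

namespace Fermat.Agent.S02

/-- Coprime case with `b` even: after possibly negating everything we get a Frey package. -/
theorem of_coprime_even {a b c : ℤ} (ha : a ≠ 0) (hb : b ≠ 0) (hc : c ≠ 0) {p : ℕ}
    (pp : p.Prime) (hp5 : 5 ≤ p) (H : a ^ p + b ^ p = c ^ p) (hgcd : gcd a b = 1)
    (hb2 : (2 : ℤ) ∣ b) : Nonempty FreyPackage := by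
  have hpodd : Odd p := pp.odd_of_ne_two (by omega)
  have ha_odd : ¬ (2 : ℤ) ∣ a := by
    intro h2
    have h : (2 : ℤ) ∣ gcd a b := dvd_gcd h2 hb2
    rw [hgcd] at h
    norm_num at h
  have h4 : a % 4 = 1 ∨ a % 4 = 3 := by omega
  have hb2' : ((b : ℤ) : ZMod 2) = 0 := (ZMod.intCast_zmod_eq_zero_iff_dvd b 2).2 hb2
  rcases h4 with h1 | h3
  · refine ⟨⟨-a, -b, -c, neg_ne_zero.2 ha, neg_ne_zero.2 hb, neg_ne_zero.2 hc, p, pp, hp5,
      ?_, ?_, ?_, ?_⟩⟩
    · rw [hpodd.neg_pow, hpodd.neg_pow, hpodd.neg_pow, ← H]; ring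
    · rw [gcd_neg, neg_gcd]; exact hgcd
    · have : ((-a : ℤ) : ZMod 4) = ((3 : ℤ) : ZMod 4) := by
        rw [ZMod.intCast_eq_intCast_iff]
        unfold Int.ModEq
        omega
      simpa using this
    · have : (2 : ℤ) ∣ -b := (dvd_neg).2 hb2
      exact (ZMod.intCast_zmod_eq_zero_iff_dvd (-b) 2).2 this
  · refine ⟨⟨a, b, c, ha, hb, hc, p, pp, hp5, H, hgcd, ?_, hb2'⟩⟩
    have : ((a : ℤ) : ZMod 4) = ((3 : ℤ) : ZMod 4) := by
      rw [ZMod.intCast_eq_intCast_iff]
      unfold Int.ModEq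
      omega
    simpa using this

/-- Coprime case. -/
theorem of_coprime {a b c : ℤ} (ha : a ≠ 0) (hb : b ≠ 0) (hc : c ≠ 0) {p : ℕ}
    (pp : p.Prime) (hp5 : 5 ≤ p) (H : a ^ p + b ^ p = c ^ p) (hgcd : gcd a b = 1) :
    Nonempty FreyPackage := by
  have hpodd : Odd p := pp.odd_of_ne_two (by omega)
  have hppos : 0 < p := pp.pos
  have hgcdac : gcd a c = 1 := by rw [← gcdab_eq_gcdac hppos H, hgcd]
  by_cases hb2 : (2 : ℤ) ∣ b
  · exact of_coprime_even ha hb hc pp hp5 H hgcd hb2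
  by_cases ha2 : (2 : ℤ) ∣ a
  · refine of_coprime_even hb ha hc pp hp5 (by rw [add_comm]; exact H) ?_ ha2
    rw [gcd_comm]; exact hgcd
  · -- both odd, so `c` is even
    have hc2 : (2 : ℤ) ∣ c := by
      have hao : Odd a := by
        rcases Int.even_or_odd a with h | h
        · exact absurd (even_iff_two_dvd.1 h) ha2
        · exact h
      have hbo : Odd b := by
        rcases Int.even_or_odd b with h | h
        · exact absurd (even_iff_two_dvd.1 h) hb2
        · exact h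
      have hce : Even (c ^ p) := by
        rw [← H]
        exact (hao.pow).add_odd (hbo.pow)
      have : Even c := (Int.even_pow.1 hce).1
      exact even_iff_two_dvd.1 this
    refine of_coprime_even (a := a) (b := -c) (c := -b) ha (neg_ne_zero.2 hc) (neg_ne_zero.2 hb)
      pp hp5 ?_ ?_ ((dvd_neg).2 hc2)
    · rw [hpodd.neg_pow, hpodd.neg_pow, ← H]; ring
    · rw [gcd_neg]; exact hgcdac

theorem result (a b c : ℤ) (ha : a ≠ 0) (hb : b ≠ 0) (hc : c ≠ 0) (p : ℕ) (pp : p.Prime) (hp5 : 5 ≤ p) (H : a ^ p + b ^ p = c ^ p) : Nonempty FreyPackage := by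
  have hp0 : p ≠ 0 := pp.ne_zero
  -- divide out by d = gcd a b
  obtain ⟨a', b', hcop, ha', hb'⟩ := Int.exists_gcd_one (m := a) (n := b)
    (Int.gcd_pos_of_ne_zero_left b ha)
  set d : ℤ := (Int.gcd a b : ℤ) with hd
  have hd0 : d ≠ 0 := by
    have := Int.gcd_pos_of_ne_zero_left b ha
    rw [hd]; exact_mod_cast this.ne'
  have hdc : d ∣ c := by
    rw [← Int.pow_dvd_pow_iff hp0, ← H]
    apply dvd_add
    · rw [Int.pow_dvd_pow_iff hp0]; exact Int.gcd_dvd_left a b
    · rw [Int.pow_dvd_pow_iff hp0]; exact Int.gcd_dvd_right a b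
  obtain ⟨c', hc'⟩ := hdc
  have ha'0 : a' ≠ 0 := by
    rintro rfl
    apply ha; rw [ha']; simp
  have hb'0 : b' ≠ 0 := by
    rintro rfl
    apply hb; rw [hb']; simp
  have hc'0 : c' ≠ 0 := by
    rintro rfl
    apply hc; rw [hc']; simp
  have H' : a' ^ p + b' ^ p = c' ^ p := by
    have hdp : d ^ p ≠ 0 := pow_ne_zero p hd0
    apply mul_left_cancel₀ hdp
    have : d ^ p * (a' ^ p + b' ^ p) = (a' * d) ^ p + (b' * d) ^ p := by ring
    rw [this, ← ha', ← hb', H, hc']; ring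
  refine of_coprime ha'0 hb'0 hc'0 pp hp5 H' ?_
  rw [← Int.coe_gcd]
  exact_mod_cast hcop

end Fermat.Agent.S02
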