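-- Statement S05 (row 5): the mod-p Galois representation of the Frey curve is unramified at every
-- prime q ≠ 2, p.  Proof: M1 project (Fermat/Agent/S05/*.lean): transfer to the Legendre-type model
-- W_d, kernel of reduction without p-torsion, same-reduction lemma, and the x-coordinate pair law
-- at the node (no Tate curve).
import Fermat.Statements.S05
import Fermat.Agent.S05.GoodBad
import Fermat.Agent.S05.KernelProof
import Fermat.Agent.S05.NodeFinal

set_option autoImplicit false
open WeierstrassCurve WeierstrassCurve.Affine WeierstrassCurve.Affine.Point
open CuspForm ModularFormClass UpperHalfPlane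
open FreyPackage

namespace Fermat.Agent.S05

theorem result (P : FreyPackage) {q : ℕ} (hq : q.Prime) (hq2 : q ≠ 2) (hqp : q ≠ P.p) : P.GaloisRepUnramifiedAt q :=
  Asm.unramified_of_statements KernelProof.kernelStatement NodeFinal.nodeStatement P hq hq2 hqp

end Fermat.Agent.S05
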