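import Fermat.Statements.S07
import Fermat.Prelude.Thm_ModularForm_sturm_bound_Gamma0
import Fermat.Prelude.Thm_CongruenceSubgroup_one_mem_strictPeriods_Gamma0

set_option autoImplicit false
open WeierstrassCurve WeierstrassCurve.Affine WeierstrassCurve.Affine.Point
open CuspForm ModularFormClass UpperHalfPlane
open ModularForm

namespace Fermat.Agent.S07

open scoped MatrixGroups

/-- First column of `g` reduced mod 2. -/
def colMap (g : SL(2, ℤ)) : ZMod 2 × ZMod 2 := (((g 0 0 : ℤ) : ZMod 2), ((g 1 0 : ℤ) : ZMod 2))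

lemma zmod2_aux : ∀ a00 a01 a10 a11 b00 b01 b10 b11 : ZMod 2,
    a00 * a11 - a01 * a10 = 1 → b00 * b11 - b01 * b10 = 1 →
    -a10 * b00 + a00 * b10 = 0 → a00 = b00 ∧ a10 = b10 := by
  decide

lemma inv_mul_entry (a b : SL(2, ℤ)) :
    (a⁻¹ * b) 1 0 = -(a 1 0) * (b 0 0) + (a 0 0) * (b 1 0) := by
  rw [Matrix.SpecialLinearGroup.coe_mul, Matrix.SpecialLinearGroup.coe_inv, Matrix.adjugate_fin_two]
  simp [Matrix.mul_apply, Fin.sum_univ_two]

lemma det_entry (a : SL(2, ℤ)) : (a 0 0) * (a 1 1) - (a 0 1) * (a 1 0) = 1 := by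
  have := a.det_coe
  rw [Matrix.det_fin_two] at this
  exact this

lemma colMap_eq_iff (a b : SL(2, ℤ)) :
    colMap a = colMap b ↔ a⁻¹ * b ∈ CongruenceSubgroup.Gamma0 2 := by
  rw [CongruenceSubgroup.Gamma0_mem, inv_mul_entry]
  have ha := congrArg (Int.cast : ℤ → ZMod 2) (det_entry a)
  have hb := congrArg (Int.cast : ℤ → ZMod 2) (det_entry b)
  push_cast at ha hb ⊢
  constructor
  · intro h
    simp only [colMap, Prod.mk.injEq] at h
    rw [h.1, h.2]
    ring
  · intro h
    obtain ⟨h1, h2⟩ := zmod2_aux _ _ _ _ _ _ _ _ ha hb h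
    simp only [colMap, Prod.mk.injEq]
    exact ⟨h1, h2⟩

lemma index_Gamma0_two_le : (CongruenceSubgroup.Gamma0 2).index ≤ 4 := by
  let F : SL(2, ℤ) ⧸ CongruenceSubgroup.Gamma0 2 → ZMod 2 × ZMod 2 :=
    Quotient.lift colMap (fun a b hab => by
      rw [colMap_eq_iff]
      exact QuotientGroup.leftRel_apply.mp hab)
  have hF : Function.Injective F := by
    intro x y
    induction x using Quotient.inductionOn with
    | h a =>
      induction y using Quotient.inductionOn with
      | h b =>
        intro h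
        apply Quotient.sound
        apply QuotientGroup.leftRel_apply.mpr
        rw [← colMap_eq_iff]
        exact h
  have := Nat.card_le_card_of_injective F hF
  have h4 : Nat.card (ZMod 2 × ZMod 2) = 4 := by
    simp
  rw [h4] at this
  exact this

theorem result (f : CuspForm (CongruenceSubgroup.Gamma0 2) 2) : f = 0 := by
  have hidx := index_Gamma0_two_le
  have h := ModularForm.sturm_bound_Gamma0 2 (ModularFormClass.modularForm f) (by
    intro n hn
    have h0 : n = 0 := by
      have : (2 * ((CongruenceSubgroup.Gamma0 2).index : ℤ)).toNat / 12 = 0 := by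
        omega
      omega
    subst h0
    exact CuspFormClass.qExpansion_coeff_zero f one_pos
      (CongruenceSubgroup.one_mem_strictPeriods_Gamma0 2))
  ext z
  have hz := DFunLike.congr_fun h z
  simpa using hz

end Fermat.Agent.S07
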