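-- Statement S08: every weight-2 cusp form of level Γ₀(1) is zero.
import Fermat.Statements.S08

set_option autoImplicit false
open WeierstrassCurve WeierstrassCurve.Affine WeierstrassCurve.Affine.Point
open CuspForm ModularFormClass UpperHalfPlane
open ModularForm

namespace Fermat.Agent.S08

open scoped MatrixGroups in
theorem gamma0_one_map_eq :
    Subgroup.map (Matrix.SpecialLinearGroup.mapGL ℝ) (CongruenceSubgroup.Gamma0 1) = 𝒮ℒ := by
  have h : CongruenceSubgroup.Gamma0 1 = ⊤ := by
    ext A
    simp only [CongruenceSubgroup.Gamma0_mem, Subgroup.mem_top, iff_true]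
    exact Subsingleton.elim _ _
  rw [h, ← MonoidHom.range_eq_map]

open scoped MatrixGroups in
theorem cuspForm_eq_zero_of_group_eq {Γ : Subgroup (GL (Fin 2) ℝ)} (hΓ : Γ = 𝒮ℒ)
    (f : CuspForm Γ 2) : f = 0 := by
  subst hΓ
  exact rank_zero_iff_forall_zero.mp
    (CuspForm.rank_eq_zero_of_weight_lt_twelve (by norm_num)) f

theorem result (f : CuspForm (CongruenceSubgroup.Gamma0 1) 2) : f = 0 :=
  cuspForm_eq_zero_of_group_eq gamma0_one_map_eq f

end Fermat.Agent.S08
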