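import Fermat.Statements.S10
import Fermat.Agent.FLTSmall.Glue
import Fermat.Agent.FLTSmall.KLBackup5
import Fermat.Agent.FLTSmall.KLBackup7
import Fermat.Agent.FLTSmall.KLBackup13

set_option autoImplicit false
open WeierstrassCurve WeierstrassCurve.Affine WeierstrassCurve.Affine.Point
open CuspForm ModularFormClass UpperHalfPlane
open FreyPackage

namespace Fermat.Agent.S10

theorem result (P : FreyPackage) (hp : P.p = 5 ∨ P.p = 7 ∨ P.p = 13) : ¬ HasGaloisStableCofixedLine (K := AlgebraicClosure ℚ) ℚ P.freyCurve P.p := by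
  have := Fermat.Agent.FLTSmall.isCyclotomicExtension_five
  have := Fermat.Agent.FLTSmall.isCyclotomicExtension_seven
  have := Fermat.Agent.FLTSmall.isCyclotomicExtension_thirteen
  exact (Fermat.Agent.FLTSmall.FreyPackage.false_of_small
    (Fermat.Agent.FLTSmall.KLB.kummerLemma_five _)
    (Fermat.Agent.FLTSmall.KLB.kummerLemma_seven _)
    (Fermat.Agent.FLTSmall.KLB.kummerLemma_thirteen _) P hp).elim

end Fermat.Agent.S10
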