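import Fermat.Statements.S11
import Fermat.Agent.FLTSmall.Glue
import Fermat.Agent.FLTSmall.KLBackup11

set_option autoImplicit false
open WeierstrassCurve WeierstrassCurve.Affine WeierstrassCurve.Affine.Point
open CuspForm ModularFormClass UpperHalfPlane
open FreyPackage

namespace Fermat.Agent.S11

theorem result (P : FreyPackage) (hp : P.p = 11) : ¬ HasGaloisStableCofixedLine (K := AlgebraicClosure ℚ) ℚ P.freyCurve P.p := by
  have := Fermat.Agent.FLTSmall.isCyclotomicExtension_eleven
  exact (Fermat.Agent.FLTSmall.FreyPackage.false_of_eleven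
    (Fermat.Agent.FLTSmall.KLB.kummerLemma_eleven _) P hp).elim

end Fermat.Agent.S11
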