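-- Statement S23 (row 22): integral structure on S₂(Γ₀(N)), from S20 via helper11's ES block.
import Fermat.Statements.S23
import Fermat.Agent.S20
import Fermat.Agent.M2.ES.Final

set_option autoImplicit false
open CuspForm

namespace Fermat.Agent.S23

theorem result (N : ℕ) [NeZero N] : CuspForm.HasIntegralStructure N 2 :=
  Fermat.Agent.M2.ES.Final.s23_of_s20 N (Fermat.Agent.S20.result N)

end Fermat.Agent.S23
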