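-- Statement S16: the index of the image of the Eisenstein ideal in the integral Hecke algebra of
-- weight 2 and level p equals (p-1)/gcd(p-1,12).
-- Proof: `Reduction.card_eq_of_lower_of_upper` (T/I = Z/m; helper12) fed with
--   * the lower bound n | m (Shimura character + characteristic-free Shapiro count:
--     `Lower.PsiPackage.lower_hA`; helper25, helper2, helper19, helper22, helper26), and
--   * the upper bound m | n (`UpperLead.upper`: norm to level one + level-one Sturm bound mod l
--     for l >= 5, K(9), K(8); the two-cusp lemma via Igusa (S28) for the two fine cases).
import Fermat.Statements.S16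
import Fermat.Agent.S16.Adapters
import Fermat.Agent.S16.Lower.PsiPackage
import Fermat.Agent.S16.UpperLead

set_option autoImplicit false
open ModularCurve CuspForm
open ModularCurve

namespace Fermat.Agent.S16

theorem result
    (p : ℕ) [Fact p.Prime] :
    Nat.card (↥(heckeLatticeAlgebra p ∅) ⧸
        Ideal.map ((latticeRestrictHom p ∅).toRingHom.comp (heckeEvalForms p 2))
          (eisensteinIdeal p)) =
      eisensteinNumerator p :=
  Reduction.card_eq_of_lower_of_upper p (Lower.PsiPackage.lower_hA p)
    (Adapters.exists_killer_of_forms' p (UpperLead.upper p))

end Fermat.Agent.S16
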