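-- Statement S19 (row 18): a finite flat commutative cocommutative Hopf algebra over ℤ_(ℓ) whose
-- ℚ̄-points are J₀(p)[ℓ^k], Galois-equivariantly (ℓ ∤ p).
-- Proof: `Abs.s19_of_geo` (Hopf order from a level coordinate system, ORDER layer) applied to the
-- geometric target `Geo.Instance.geoTarget` (the Čech coordinates of the line bundles 𝒪(D) on the
-- smooth model of X₀(N) over the rings of integers of the levels).
import Fermat.Statements.S19
import Fermat.Agent.S19.Abs.TopGeo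
import Fermat.Agent.S19.Geo.Instance

set_option autoImplicit false
open ModularCurve
open ModularCurve

namespace Fermat.Agent.S19

theorem result
    (p : ℕ) [NeZero p] (ℓ : ℕ) [Fact ℓ.Prime] (hℓp : ¬ ℓ ∣ p) (k : ℕ) :
    ∃ (H : Type) (_ : CommRing H) (_ : HopfAlgebra (GaloisRep.ratLocalizedAt ℓ) H),
      Module.Finite (GaloisRep.ratLocalizedAt ℓ) H ∧ Module.Flat (GaloisRep.ratLocalizedAt ℓ) H ∧
      Coalgebra.IsCocomm (GaloisRep.ratLocalizedAt ℓ) H ∧
      ∃ e : WithConv (H →ₐ[GaloisRep.ratLocalizedAt ℓ] AlgebraicClosure ℚ) ≃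
          ↥(Submodule.torsionBy ℤ (JZero p) ((ℓ : ℤ) ^ k)),
        (∀ f g, e (f * g) = e f + e g) ∧
        ∀ (σ : AlgebraicClosure ℚ ≃ₐ[ℚ] AlgebraicClosure ℚ)
          (f g : WithConv (H →ₐ[GaloisRep.ratLocalizedAt ℓ] AlgebraicClosure ℚ)),
          (∀ h : H, g h = σ (f h)) → ((e g : JZero p)) = σ • (e f : JZero p) :=
  Fermat.Agent.S19.Abs.s19_of_geo Fermat.Agent.S19.Geo.Instance.geoTarget p ℓ hℓp k

end Fermat.Agent.S19
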