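-- Statement S24: the genus of the function field of X₀(N) over ℚ̄ equals the classical genus formula.
-- Assembly (M2b, lead helper12).  Route: Riemann–Hurwitz in the prelude's place language
-- (Hurwitz.lean) for x = j(q) on F = ℚ̄(j(q^d) : d ∣ N), with the degree ψ(N) and the fibre counts
-- over 0, 1728, ∞ transferred from ℂ (CountsFC.lean, through the q-expansion isomorphism
-- WHField (Γ₀(N)) ≃ F_ℂ and the M2 dictionary) along the constant field extension ℚ̄ ⊂ ℂ
-- (BarToC / DescentDegree / PlaceExtend), and the numerics of Numerics.lean.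
import Fermat.Statements.S24
import Fermat.Agent.S24.AssemblyQbar
import Fermat.Agent.S24.PlaceExtend
import Fermat.Agent.S24.BarToC
import Fermat.Agent.S24.DescentDegree
import Fermat.Agent.S24.FFBasicsC
import Fermat.Agent.S24.CountsFC
import Fermat.Agent.M2.P1Psi

set_option autoImplicit false
open ModularCurve

namespace Fermat.Agent.S24

open AlgebraicCurve IntermediateField Fermat.Agent.M2.P1 Fermat.Agent.S24.FieldIso in
/-- From the ℂ-side data (B5) to the genus over `ℚ̄`: transfer along `BarToC.phi`. -/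
theorem genus_eq_of_countsC (N : ℕ) [NeZero N]
    [HasCanonicalDivisor (K := AlgebraicClosure ℚ) (F := ↥(modularFunctionFieldBar N))]
    [FiniteDimensional ℂ⟮xC N⟯ ↥(FC N)]
    (hnC : Module.finrank ℂ⟮xC N⟯ ↥(FC N) = dedekindPsi N)
    (hcC : ∀ c : ℂ, c ≠ 0 → c ≠ 1728 →
      Nat.card {v : Place ℂ ↥(FC N) //
        xC N - algebraMap ℂ ↥(FC N) c ∈ v.toValuationSubring.nonunits} = dedekindPsi N)
    (h0C : Nat.card {v : Place ℂ ↥(FC N) //
        xC N - algebraMap ℂ ↥(FC N) 0 ∈ v.toValuationSubring.nonunits}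
          = orbitCount N (ModularGroup.S * ModularGroup.T))
    (h1728C : Nat.card {v : Place ℂ ↥(FC N) //
        xC N - algebraMap ℂ ↥(FC N) 1728 ∈ v.toValuationSubring.nonunits}
          = orbitCount N ModularGroup.S)
    (hinfC : Nat.card {v : Place ℂ ↥(FC N) //
        (xC N)⁻¹ ∈ v.toValuationSubring.nonunits} = orbitCount N ModularGroup.T) :
    (genus (AlgebraicClosure ℚ) ↥(modularFunctionFieldBar N) : ℚ) = genusFormula N := by
  classical
  have hmem : coeffEmb (AlgebraicClosure ℚ) jq ∈ modularFunctionFieldBar N :=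
    coeffEmb_mem_laurentBaseChange (AlgebraicClosure ℚ) (by
      have h := jqd_mem_full N (one_dvd N)
      rwa [qExpand_one_apply] at h)
  set x : ↥(modularFunctionFieldBar N) := ⟨coeffEmb (AlgebraicClosure ℚ) jq, hmem⟩ with hxdef
  have hx : Transcendental (AlgebraicClosure ℚ) x := FFBasics.transcendental_xj N hmem
  haveI hfd : FiniteDimensional (AlgebraicClosure ℚ)⟮x⟯ ↥(modularFunctionFieldBar N) :=
    FFBasics.finiteDimensional_xj' N hmem
  -- residue fields
  have hres : ∀ v : Place (AlgebraicClosure ℚ) ↥(modularFunctionFieldBar N),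
      PlaceDeriv.ResidueTrivial v := by
    intro v
    haveI : v.FiniteResidue := ⟨Fermat.Agent.S24.finite_residueField' x hx v⟩
    exact Hurwitz.residueTrivial v
  -- the embedding and the algebra structures
  let ι : AlgebraicClosure ℚ →+* ℂ := BarToC.iota
  letI := BarToC.algQC ι
  letI := BarToC.algQFC N ι
  haveI := BarToC.isScalarTower N ι
  have hφx : BarToC.phi N ι x = xC N := BarToC.phi_jq N ι hmem
  have hd := BarToC.linDisj N ι
  have hgen := BarToC.adjoin_range_phi N ι
  -- degree
  haveI : FiniteDimensional ℂ⟮BarToC.phi N ι x⟯ ↥(FC N) := by rw [hφx]; infer_instance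
  have hn : Module.finrank (AlgebraicClosure ℚ)⟮x⟯ ↥(modularFunctionFieldBar N)
      = dedekindPsi N := by
    rw [(DescentDegree.finrank_eq_of_linDisj hd hgen hx).2, ← hnC]
    congr 2 <;> rw [hφx]
  have hd' : PlaceExtend.LinDisj ℂ (BarToC.phi N ι) := fun n b hb => hd.linearIndependent hb
  -- transfer of a count
  have tr : ∀ h : ↥(modularFunctionFieldBar N), h ≠ 0 →
      Nat.card {v : Place (AlgebraicClosure ℚ) ↥(modularFunctionFieldBar N) //
        h ∈ v.toValuationSubring.nonunits} =
      Nat.card {v' : Place ℂ ↥(FC N) // BarToC.phi N ι h ∈ v'.toValuationSubring.nonunits} :=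
    fun h hh => PlaceExtend.card_zeros_eq hd' hgen hh (fun v _ => hres v)
  have hxK : ∀ c : AlgebraicClosure ℚ, x - algebraMap (AlgebraicClosure ℚ) _ c ≠ 0 := by
    intro c h
    apply hx
    rw [sub_eq_zero] at h
    rw [h]
    exact isAlgebraic_algebraMap c
  have hx0 : x ≠ 0 := by
    intro h
    apply hx
    rw [h]
    exact isAlgebraic_zero
  have hconst : ∀ c : AlgebraicClosure ℚ,
      BarToC.phi N ι (x - algebraMap (AlgebraicClosure ℚ) _ c)
        = xC N - algebraMap ℂ ↥(FC N) (ι c) := by
    intro c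
    rw [map_sub, hφx, AlgHom.commutes]
    rfl
  have hinv : BarToC.phi N ι x⁻¹ = (xC N)⁻¹ := by rw [map_inv₀, hφx]
  have hι1728 : ι 1728 = 1728 := map_ofNat ι 1728
  refine AssemblyQbar.genus_eq_of_counts N x hx hn ?_ ?_ ?_ ?_
  · intro c h0 h1
    rw [tr _ (hxK c), hconst]
    exact hcC (ι c) ((map_ne_zero ι).2 h0) (fun h => h1 (ι.injective (h.trans hι1728.symm)))
  · rw [tr _ (hxK 0), hconst, map_zero]
    exact h0C
  · rw [tr _ (hxK 1728), hconst, hι1728]
    exact h1728C
  · rw [tr _ (inv_ne_zero hx0), hinv]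
    exact hinfC

theorem result (N : ℕ) [NeZero N]
    [AlgebraicCurve.HasCanonicalDivisor (K := AlgebraicClosure ℚ) (F := ↥(ModularCurve.modularFunctionFieldBar N))] :
    (AlgebraicCurve.genus (AlgebraicClosure ℚ) ↥(ModularCurve.modularFunctionFieldBar N) : ℚ)
      = ModularCurve.genusFormula N := by
  haveI : FiniteDimensional (IntermediateField.adjoin ℂ {FieldIso.xC N}) ↥(FieldIso.FC N) :=
    FiniteDimensional.of_finrank_pos (by
      rw [CountsFC.finrank_FC N]
      exact Fermat.Agent.M2.P1.dedekindPsi_pos N (NeZero.ne N))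
  exact genus_eq_of_countsC N (CountsFC.finrank_FC N)
    (fun c h0 h1 => CountsFC.card_places_FC_of_ne N h0 h1)
    (CountsFC.card_places_FC_zero N) (CountsFC.card_places_FC_1728 N)
    (CountsFC.card_places_FC_inf N)

end Fermat.Agent.S24
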