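-- Statement S28: the special fibre of the Igusa two-chart model of `X_0(N)` over `ℤ_(ℓ)`, `ℓ ∤ N`,
-- is integral.  Assembly of the N4 block S28a (`N4/Irreducible*.lean`), the base change
-- `ℤ_(2) ⊆ ℤ_(2)[ω]` (`N4/OmegaBase.lean`), the algebraic closedness of the constants in the
-- function field (`N4/FFAlgClosed.lean`) and the scheme glue (`S28/FromStar.lean`).
import Fermat.Statements.S28
import Fermat.Agent.N4.IrreducibleRat
import Fermat.Agent.N4.FFAlgClosed
import Fermat.Agent.N4.OmegaBase

set_option autoImplicit false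
open AlgebraicGeometry CategoryTheory CategoryTheory.Limits ModularCurve ModularCurve.IgusaScheme
noncomputable section
set_option autoImplicit false
open ModularCurve ModularCurve.IgusaScheme

namespace Fermat.Agent.S28

/-- The constants are algebraically closed in the function field. -/
theorem algClosedInFF_h13 : Fermat.Agent.N4.Irreducible.AlgClosedInFF :=
  fun K _ _ N _ x hx => Fermat.Agent.N4.FFAlgClosed.algebraic_mem_range K N x hx

/-- The base change `ℤ_(2) ⊆ ℤ_(2)[ω]`. -/
theorem omegaBaseStatement_h13 : Fermat.Agent.N4.IrreducibleRat.OmegaBaseStatement :=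
  fun N _ hN => Fermat.Agent.N4.OmegaBase.exists_omega_base N hN

set_option maxHeartbeats 4000000 in
set_option synthInstance.maxHeartbeats 400000 in
theorem result
    (N : ℕ) [NeZero N] (ℓ : ℕ) [Fact ℓ.Prime] (hℓN : ¬ ℓ ∣ N)
    (K : Type) [Field K] [CharP K ℓ] [Algebra ↥(GaloisRep.ratLocalizedAt ℓ) K] :
    IsIntegral ↑(pullback (igusaTo N ℓ)
      (Spec.map (CommRingCat.ofHom (algebraMap ↥(GaloisRep.ratLocalizedAt ℓ) K)))) := by
  have h := Fermat.Agent.N4.IrreducibleRat.isPrime_fibreIdeal_rat algClosedInFF_h13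
    omegaBaseStatement_h13 N ℓ hℓN
  exact Fermat.Agent.S28.FromStar.isIntegral_of_setting_prime N ℓ K h.1 h.2

end Fermat.Agent.S28
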