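-- Statement S29: residual Galois representation attached to a weight-2 eigenform of level Γ₀(N).
-- Proof: N4-FULL (blocks F, C, E-tors, S18) via `Res.FinalCond.s29_of_blocks`.
import Fermat.Statements.S29
import Fermat.Agent.N4F.Res.BlocksFinal
import Fermat.Agent.N4F.E.AlphaSideFinal

set_option autoImplicit false
open CuspForm CuspForm.IsNormalizedEigenform

namespace Fermat.Agent.S29

theorem result
    {N : ℕ} {g : CuspForm (CongruenceSubgroup.Gamma0 N) 2} (hg : g.IsNormalizedEigenform)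
    {p : ℕ} (hp : p.Prime) {k : Type} [Field k] [CharP k p]
    (φ : integralClosure ℤ ℂ →+* k) :
    ∃ ρ : ResidualGaloisRep k, ρ.IsAttachedTo g φ ∧
      ∀ ℓ : ℕ, ℓ.Prime → ¬ ℓ ∣ N * p → ρ.IsUnramifiedAt ℓ :=
  Fermat.Agent.N4F.Res.FinalCond.s29_of_blocks
    (Fermat.Agent.N4F.Res.BlocksFinal.blocks_of_charpolyForm
      Fermat.Agent.N4F.E.AlphaSideFinal.alphaCharpolyForm) hg hp φ

end Fermat.Agent.S29
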