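-- Statement S31: the Hecke-Galois representation datum is unramified outside S.
-- Proof: N4-FULL (blocks F, C, E-tors, S18) + Tate module via `Adic.FinalCondAdic.s31_of_blocks`.
import Fermat.Statements.S31
import Fermat.Agent.N4F.Res.BlocksFinal
import Fermat.Agent.N4F.Adic.FinalCondAdic
import Fermat.Agent.N4F.E.AlphaSideFinal

set_option autoImplicit false
variable {p : ℕ} {N : ℕ} [NeZero N] {S : Finset ℕ}
  {𝒪 : Type} [CommRing 𝒪] [IsDomain 𝒪] [IsDiscreteValuationRing 𝒪]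
  [IsAdicComplete (IsLocalRing.maximalIdeal 𝒪) 𝒪]
  {θ : CuspForm.heckeAlgebra N 2 (↑S : Set ℕ) →+* IsLocalRing.ResidueField 𝒪}
  {T : Type} [CommRing T] [IsLocalRing T] [IsNoetherianRing T]
  [IsAdicComplete (IsLocalRing.maximalIdeal T) T] [Algebra 𝒪 T] [IsLocalHom (algebraMap 𝒪 T)]
  [Module.Finite 𝒪 T] [Module.Free 𝒪 T]
open CuspForm CuspForm.HeckeGaloisRepDatum

namespace Fermat.Agent.S31

theorem result (hp : p.Prime)
    (hp𝒪 : (p : 𝒪) ∈ IsLocalRing.maximalIdeal 𝒪) (hpS : p ∈ S)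
    (hNS : ∀ q : ℕ, q.Prime → q ∣ N → q ∈ S)
    (H : CuspForm.HeckeGaloisRepDatum N (↑S : Set ℕ) 𝒪 θ T)
    (q : ℕ) (hq : q.Prime) (hqS : q ∉ S) :
    H.ρ.IsUnramifiedAt q :=
  Fermat.Agent.N4F.Adic.FinalCondAdic.s31_of_blocks
    (Fermat.Agent.N4F.Res.BlocksFinal.blocks_of_charpolyForm
      Fermat.Agent.N4F.E.AlphaSideFinal.alphaCharpolyForm) hp hp𝒪 hpS hNS H q hq hqS

end Fermat.Agent.S31
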