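-- Statement S32: the Hecke-Galois representation datum is flat at p.
-- Proof: S19 (Hopf orders on J_0(N)[p^k]) + Carayol-type annihilator inclusion
-- (`Fermat.Agent.S32.Carayol.Assembly.isFlatAt`) + stability of Hopf orders under subquotients.
import Fermat.Statements.S32
import Fermat.Agent.S19
import Fermat.Agent.S19.Base.OfS19
import Fermat.Agent.S32.Carayol.Assembly

set_option autoImplicit false
variable {p : ℕ} {N : ℕ} [NeZero N] {S : Finset ℕ}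
  {𝒪 : Type} [CommRing 𝒪] [IsDomain 𝒪] [IsDiscreteValuationRing 𝒪]
  [IsAdicComplete (IsLocalRing.maximalIdeal 𝒪) 𝒪]
  {θ : CuspForm.heckeAlgebra N 2 (↑S : Set ℕ) →+* IsLocalRing.ResidueField 𝒪}
  {T : Type} [CommRing T] [IsLocalRing T] [IsNoetherianRing T]
  [IsAdicComplete (IsLocalRing.maximalIdeal T) T] [Algebra 𝒪 T] [IsLocalHom (algebraMap 𝒪 T)]
  [Module.Finite 𝒪 T] [Module.Free 𝒪 T]
open CuspForm CuspForm.HeckeGaloisRepDatum

namespace Fermat.Agent.S32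

theorem result
    [Finite (IsLocalRing.ResidueField 𝒪)] [CharZero 𝒪]
    (hp : p.Prime) (hp2 : p ≠ 2) (hp𝒪 : (p : 𝒪) ∈ IsLocalRing.maximalIdeal 𝒪) (hpN : ¬ p ∣ N)
    (hpS : p ∈ S) (hNS : ∀ q : ℕ, q.Prime → q ∣ N → q ∈ S)
    (H : CuspForm.HeckeGaloisRepDatum N (↑S : Set ℕ) 𝒪 θ T) :
    H.ρ.IsFlatAt p :=
  haveI : Fact p.Prime := ⟨hp⟩
  Fermat.Agent.S32.Carayol.Assembly.isFlatAt hp
    (fun k => Fermat.Agent.S19.Base.hasHopfOrder_tors_of_s19 N p k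
      (Fermat.Agent.S19.result N p hpN k))
    hp2 hp𝒪 hpS hNS H

end Fermat.Agent.S32
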