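-- Statement S34: the Hecke-Galois representation datum has unipotent inertia at every prime q ∥ N, q ≠ p.
-- Proof: P3-G.  Eichler–Shimura on torsion (N4-FULL, `Res.BlocksFinal.esOnTorsionAll`) gives the Tate-module
-- reduction (`S34Assembly`/`S34Final`/`AuxPrime`); the geometric statement (G) — (σ − 1)² = 0 on
-- J_0(N')[p^k] for σ in an inertia group at q ∥ N' — is proved at Galois-stable good levels
-- (`Assembly.LevelStep`, `Assembly.LevelGeomOfPoints`) from the nodal two-component special fibre of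
-- level N' = M q (`Assembly.PointsFinal.levelPointsAll`).
import Fermat.Statements.S34
import Fermat.Agent.N4F.Res.BlocksFinal
import Fermat.Agent.N4F.E.AlphaSideFinal
import Fermat.Agent.P3G.Assembly.PointsFinal

set_option autoImplicit false
set_option autoImplicit false
open IsLocalRing
open CuspForm CuspForm.HeckeGaloisRepDatum

namespace Fermat.Agent.S34

theorem result
    {𝒪 : Type} [CommRing 𝒪] [IsDomain 𝒪] [IsDiscreteValuationRing 𝒪]
    [IsAdicComplete (maximalIdeal 𝒪) 𝒪] [Finite (ResidueField 𝒪)] [CharZero 𝒪]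
    {p : ℕ} (hp : p.Prime) (hp𝒪 : (p : 𝒪) ∈ maximalIdeal 𝒪)
    {N : ℕ} [NeZero N] {S : Finset ℕ} (hpS : p ∈ S) (hNS : ∀ q : ℕ, q.Prime → q ∣ N → q ∈ S)
    {θ : CuspForm.heckeAlgebra N 2 (↑S : Set ℕ) →+* ResidueField 𝒪}
    {T : Type} [CommRing T] [IsLocalRing T] [IsNoetherianRing T]
    [IsAdicComplete (maximalIdeal T) T] [Algebra 𝒪 T] [IsLocalHom (algebraMap 𝒪 T)]
    [Module.Finite 𝒪 T] [Module.Free 𝒪 T]
    (H : CuspForm.HeckeGaloisRepDatum N (↑S : Set ℕ) 𝒪 θ T)
    (q : ℕ) (hq : q.Prime) (hqp : q ≠ p) (hqN : q ∣ N) (hq2 : ¬ q ^ 2 ∣ N) :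
    H.ρ.IsUnipotentOnInertiaAt q :=
  Fermat.Agent.P3G.Assembly.LevelGeomOfPoints.s34_of_es_of_points
    (fun N _ => Fermat.Agent.N4F.Res.BlocksFinal.esOnTorsionAll
      (Fermat.Agent.N4F.Res.BlocksFinal.blocks_of_charpolyForm
        Fermat.Agent.N4F.E.AlphaSideFinal.alphaCharpolyForm) N)
    (Fermat.Agent.P3G.Assembly.LevelGeomOfPoints.levelPoints_of_all
      Fermat.Agent.P3G.Assembly.PointsFinal.levelPointsAll)
    hp hp𝒪 hpS hNS H q hq hqp hqN hq2

end Fermat.Agent.S34
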