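-- Statement S42: eigenform residual attachment for a Frey package at every level.
-- Proof: N4-FULL (blocks F, C, E-tors, S18) via `Res.FinalCond.s42_of_blocks`.
import Fermat.Statements.S42
import Fermat.Agent.N4F.Res.BlocksFinal
import Fermat.Agent.N4F.E.AlphaSideFinal

set_option autoImplicit false
open FreyPackage

namespace Fermat.Agent.S42

theorem result (P : FreyPackage) :
    ∀ M : ℕ, 0 < M → P.EigenformResidualAttachmentAt M :=
  Fermat.Agent.N4F.Res.FinalCond.s42_of_blocks
    (Fermat.Agent.N4F.Res.BlocksFinal.blocks_of_charpolyForm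
      Fermat.Agent.N4F.E.AlphaSideFinal.alphaCharpolyForm) P

end Fermat.Agent.S42
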