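/-
S44 (row 38): level lowering at `p` for the Frey package.
Assembly (route B): `S40/Top/OfR4.s44_of_r4` (frozen conclusion from the named leaf `SSLeafAsm.R4Leaf`
at the auxiliary level `lcm(4, M')`, place `padicPlace p`, small level `bigLevel (smallField V)`),
`S40/M1/R4Aux.r4Leaf` (the leaf from `NodeData` and `H3Data` above an unramified level `K₀`),
`S40/M1/UnramBase` (`K₀ := bigLevel (padicPlace p) ⊥`), `S40/M1/NodeDataU6.nodeData`,
`S40/M1/H3DataLevel.h3Data`.
-/
import Fermat.Statements.S44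
import Fermat.Agent.S40.Top.OfR4
import Fermat.Agent.S40.M1.R4Aux
import Fermat.Agent.S40.M1.UnramBase
import Fermat.Agent.S40.M1.H3DataLevel
import Fermat.Agent.S40.M1.NodeDataU6

set_option autoImplicit false
open WeierstrassCurve WeierstrassCurve.Affine WeierstrassCurve.Affine.Point
open CuspForm ModularFormClass UpperHalfPlane
open FreyPackage

namespace Fermat.Agent.S44

theorem result (P : FreyPackage) {N : ℕ} (hcond : P.IsConductorLevel N) (hpN : P.p ∣ N) (hirr : GaloisRepIsIrreducible (K := AlgebraicClosure ℚ) ℚ P.freyCurve P.p) (hmod : P.ModularRepOfLevel N) : ∃ M : ℕ, M ∣ N ∧ ¬ P.p ∣ M ∧ P.ModularRepOfLevel M :=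
  Fermat.Agent.S40.Top.OfR4.s44_of_r4 P hcond hpN hirr hmod
    (fun _ _ _ M' _ hpM' _ =>
      haveI : Fact P.p.Prime := ⟨P.pp⟩
      haveI : NeZero P.p := ⟨P.pp.ne_zero⟩
      haveI : NeZero (Nat.lcm 4 M') := Fermat.Agent.S40.Top.OfR4.neZero_lcm4 M'
      fun _ _ _ _ _ =>
        Fermat.Agent.S40.M1.R4Aux.r4Leaf P.hp5 (Nat.dvd_lcm_left 4 M')
          (Fermat.Agent.S40.Top.OfR4.not_dvd_lcm4 P.pp P.hp5 hpM')
          (Fermat.Agent.S56.Places.Dict.liesOverPrime_padicPlace P.p)
          (Fermat.Agent.S40.M1.UnramBase.isUnramLevel_bigLevel_bot _ P.pp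
            (Fermat.Agent.S56.Places.Dict.liesOverPrime_padicPlace P.p))
          (Fermat.Agent.S40.M1.UnramBase.bigLevel_bot_le _ _)
          (Fermat.Agent.S40.M1.NodeDataU6.nodeData _ _
            (Fermat.Agent.S40.Top.OfR4.not_dvd_lcm4 P.pp P.hp5 hpM') _
            (Fermat.Agent.S56.Places.Dict.liesOverPrime_padicPlace P.p)
            (Fermat.Agent.S40.M1.UnramBase.isUnramLevel_bigLevel_bot _ P.pp
              (Fermat.Agent.S56.Places.Dict.liesOverPrime_padicPlace P.p)))
          (Fermat.Agent.S40.M1.H3DataLevel.h3Data _ _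
            (Fermat.Agent.S40.Top.OfR4.not_dvd_lcm4 P.pp P.hp5 hpM') _
            (Fermat.Agent.S56.Places.Dict.liesOverPrime_padicPlace P.p)
            (Fermat.Agent.S40.M1.UnramBase.isUnramLevel_bigLevel_bot _ P.pp
              (Fermat.Agent.S56.Places.Dict.liesOverPrime_padicPlace P.p))))

end Fermat.Agent.S44
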