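-- Statement S49: Deligne–Serre lifting lemma (mod 3, weight 2, level N).
import Fermat.Statements.S49
import Fermat.Agent.S49.LinAlg
import Fermat.Agent.S49.LyingOver
import Fermat.Agent.S49.Mod3
import Fermat.Agent.S49.Eigenform

set_option autoImplicit false
open CuspForm EisensteinWeightOne CongruenceSubgroup ModularFormClass
open FLT FLT.AbstractIntegralStructure

namespace Fermat.Agent.S49

theorem result
    {N : ℕ} [NeZero N] (h : CuspForm.HasIntegralBasis N) {a : ℕ → ℤ}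
    (heig : FormalHecke.IsEigensystem
      (fun ℓ => if ℓ ∣ N then 0 else ((chiNegThree ℓ : ℤ) : ℤ)) a)
    (hreal : CuspForm.IsLatticeRealized N a) :
    ∃ (f : CuspForm (Gamma0 N) 2) (_ : f.IsNormalizedEigenform)
      (𝔪' : Ideal (integralClosure ℤ ℂ)), 𝔪'.IsMaximal ∧
      ((3 : ℕ) : integralClosure ℤ ℂ) ∈ 𝔪' ∧
      ∀ (ℓ : ℕ) (_ : ℓ.Prime) (_ : ¬ ℓ ∣ N),
        ∃ c : integralClosure ℤ ℂ, (c : ℂ) = ModularFormClass.qCoeff f ℓ ∧
          c - (a ℓ : integralClosure ℤ ℂ) ∈ 𝔪' := by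
  obtain ⟨f, -, af, haf, h3⟩ := hreal
  have hcong : ∀ n, (3 : ℤ) ∣ af n - a n := fun n => by
    have := dvd_add (h3 n) (three_dvd_coeff_bridgeProduct_sub a n)
    simpa using this
  let φ := phi haf hcong heig (∅ : Set ℕ)
  have hmax : (RingHom.ker φ).IsMaximal :=
    RingHom.ker_isMaximal_of_surjective φ (ZMod.ringHom_surjective φ)
  have hfd : FiniteDimensional ℂ (CuspForm (Gamma0 N) 2) := finiteDimensional_of_hasIntegralBasis h
  obtain ⟨χ, v, hv, hχv, hker⟩ := exists_character_ker_le_prime (K := ℂ)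
    (Subalgebra.val (CuspForm.heckeAlgebra N 2 (∅ : Set ℕ))).toRingHom Subtype.val_injective
    (RingHom.ker φ)
  have hint : ∀ t, IsIntegral ℤ (χ t) := fun t =>
    (isIntegral_heckeAlgebra h ∅ t).map χ.toIntAlgHom
  obtain ⟨𝔪', h𝔪', hmem⟩ := exists_maximal_integralClosure_over χ hint (RingHom.ker φ) hker
  obtain ⟨g, hg, hgℓ⟩ := exists_normalizedEigenform_of_eigenvector χ v hv hχv
  refine ⟨g, hg, 𝔪', h𝔪', ?_, ?_⟩
  · have h3mem : ((3 : ℕ) : CuspForm.heckeAlgebra N 2 (∅ : Set ℕ)) ∈ RingHom.ker φ := by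
      rw [RingHom.mem_ker, map_natCast]; rfl
    have e3 : ((3 : ℕ) : integralClosure ℤ ℂ) =
        ⟨χ ((3 : ℕ) : CuspForm.heckeAlgebra N 2 (∅ : Set ℕ)), hint _⟩ :=
      Subtype.ext (by
        show (((3 : ℕ) : integralClosure ℤ ℂ) : ℂ) = χ ((3 : ℕ) : CuspForm.heckeAlgebra N 2 (∅ : Set ℕ))
        rw [map_natCast]; rfl)
    rw [e3]
    exact hmem _ h3mem
  · intro ℓ hℓ hℓN
    refine ⟨⟨χ (CuspForm.heckeAlgebra.T hℓ hℓN (Set.notMem_empty ℓ)), hint _⟩,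
      (hgℓ ℓ hℓ hℓN).symm, ?_⟩
    have hmemT : CuspForm.heckeAlgebra.T hℓ hℓN (Set.notMem_empty ℓ) -
        ((a ℓ : ℤ) : CuspForm.heckeAlgebra N 2 (∅ : Set ℕ)) ∈ RingHom.ker φ := by
      rw [RingHom.mem_ker, map_sub, map_intCast]
      exact sub_eq_zero.mpr (phi_T haf hcong heig ∅ hℓ hℓN (Set.notMem_empty ℓ))
    have eT : (⟨χ (CuspForm.heckeAlgebra.T hℓ hℓN (Set.notMem_empty ℓ)), hint _⟩ :
        integralClosure ℤ ℂ) - (a ℓ : integralClosure ℤ ℂ) =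
        ⟨χ (CuspForm.heckeAlgebra.T hℓ hℓN (Set.notMem_empty ℓ) -
          ((a ℓ : ℤ) : CuspForm.heckeAlgebra N 2 (∅ : Set ℕ))), hint _⟩ :=
      Subtype.ext (by
        show χ (CuspForm.heckeAlgebra.T hℓ hℓN (Set.notMem_empty ℓ)) -
            (((a ℓ : ℤ) : integralClosure ℤ ℂ) : ℂ) =
          χ (CuspForm.heckeAlgebra.T hℓ hℓN (Set.notMem_empty ℓ) -
            ((a ℓ : ℤ) : CuspForm.heckeAlgebra N 2 (∅ : Set ℕ)))
        rw [map_sub, map_intCast]; rfl)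
    rw [eT]
    exact hmem _ hmemT

end Fermat.Agent.S49
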