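-- Statement S51 (row 45): a semistable elliptic curve over ℚ has irreducible mod 3 or mod 5 representation.
-- Proof: otherwise E has rational cyclic subgroups of order 3 and 5, giving a rational point with
-- s t ≠ 0 on the plane model t (s+27)(s+3)³ = s (t²+10t+5)³ of X₀(15) ≅ 15a1; the four non-cuspidal
-- rational points all have 5 ∣ c₄ and 5 ∣ Δ, contradicting semistability at 5.
import Fermat.Statements.S51
import Fermat.Agent.S51.Descent
import Fermat.Agent.S51.Moduli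
import Fermat.Agent.S51.X015
import Fermat.Agent.S51.RatPoints15
import Fermat.Agent.S51.Endgame

set_option autoImplicit false
open WeierstrassCurve WeierstrassCurve.Affine WeierstrassCurve.Affine.Point
open CuspForm ModularFormClass UpperHalfPlane
open WeierstrassCurve

namespace Fermat.Agent.S51

theorem result (W : WeierstrassCurve ℤ) (hΔ : W.Δ ≠ 0) (hW : W.IsSemistableModel) : W.ModRepIsIrreducible 3 ∨ W.ModRepIsIrreducible 5 := by
  by_contra hcon
  rw [not_or] at hcon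
  obtain ⟨h3, h5⟩ := hcon
  obtain ⟨E, hE⟩ : ∃ E : WeierstrassCurve ℚ, E = W.map (Int.castRingHom ℚ) := ⟨_, rfl⟩
  have hc4 : E.c₄ = (W.c₄ : ℚ) := by rw [hE, map_c₄]; rfl
  have hD : E.Δ = (W.Δ : ℚ) := by rw [hE, map_Δ]; rfl
  have hΔE : E.Δ ≠ 0 := by rw [hD]; exact_mod_cast hΔ
  have h3' : ¬ Affine.Point.GaloisRepIsIrreducible (K := AlgebraicClosure ℚ) ℚ E 3 := by
    rw [hE]; exact h3
  have h5' : ¬ Affine.Point.GaloisRepIsIrreducible (K := AlgebraicClosure ℚ) ℚ E 5 := by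
    rw [hE]; exact h5
  obtain ⟨r, hr⟩ := Descent.rational_three E hΔE h3'
  obtain ⟨sig, pi, x1, x2, hne, hsig, hpi, hC1, hC1p⟩ := Descent.rational_five E hΔE h5'
  obtain ⟨s, hs⟩ := Moduli.moduli_three E hΔE r hr
  obtain ⟨t, ht⟩ := Moduli.moduli_five E hΔE sig pi x1 x2 hne hsig hpi hC1 hC1p
  have ht0 : t ≠ 0 := by
    rintro rfl
    have h0 : E.Δ * ((0 : ℚ) ^ 2 + 10 * 0 + 5) ^ 3 = 0 := by rw [← ht]; ring
    exact hΔE (by linarith)
  have hCc : t * ((s + 27) * (s + 3) ^ 3) = s * (t ^ 2 + 10 * t + 5) ^ 3 := by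
    have h1 : E.Δ * (t * ((s + 27) * (s + 3) ^ 3)) = E.Δ * (s * (t ^ 2 + 10 * t + 5) ^ 3) := by
      linear_combination t * (-hs) + s * ht
    exact mul_left_cancel₀ hΔE h1
  have ht4 := X015.X0_15_points T5.rational_points_15a1 s t ht0 hCc
  refine Endgame.no_semistable W.c₄ W.Δ ?_ t ht4 ?_
  · rintro ⟨h5D, h5c⟩
    exact hW 5 (by norm_num) (by exact_mod_cast h5D) (by exact_mod_cast h5c)
  · rw [← hc4, ← hD]; exact ht

end Fermat.Agent.S51
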