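-- Statement S53 (row 47): existence of the universal deformation ring
-- (GaloisRep.nonempty_deformationRingData), proved via normalised matrix lifts + Schlessinger-style
-- pro-representability in ideal-filter form.  Helpers live in Fermat/Agent/S53/*.lean.
import Fermat.Statements.S53
import Fermat.Agent.S53.SliceExists
import Fermat.Agent.S53.Slice
import Fermat.Agent.S53.SliceUnique
import Fermat.Agent.S53.Tangent
import Fermat.Agent.S53.FilterBase
import Fermat.Agent.S53.FilterInf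
import Fermat.Agent.S53.FilterTangent
import Fermat.Agent.S53.UnivLift
import Fermat.Agent.S53.Universal
import Fermat.Agent.S53.ProRepB

set_option autoImplicit false
set_option autoImplicit false
open GaloisRep

namespace Fermat.Agent.S53

theorem result
    (𝒪 : Type) [CommRing 𝒪] [IsDomain 𝒪] [IsDiscreteValuationRing 𝒪]
    [IsAdicComplete (IsLocalRing.maximalIdeal 𝒪) 𝒪] [Finite (IsLocalRing.ResidueField 𝒪)]
    (ρbar : ResidualGaloisRep (IsLocalRing.ResidueField 𝒪))
    (𝒟 : ∀ ⦃A : Type⦄ [CommRing A] [IsLocalRing A] [Algebra 𝒪 A], GaloisRepAdic A → Prop)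
    (habs : ρbar.IsAbsolutelyIrreducible)
    (h𝒟 : GaloisRep.IsDeformationCondition 𝒪 𝒟)
    (hbar : 𝒟 (GaloisRepAdic.ofResidualGaloisRep ρbar))
    (hfin : GaloisRep.TangentFinite 𝒪 ρbar 𝒟) :
    Nonempty (GaloisRep.DeformationRingData 𝒪 ρbar 𝒟) := by
  obtain ⟨sd⟩ := exists_sliceData 𝒪 ρbar habs
  have hfinN := finite_nlift_dualNumber 𝒟 ρbar hfin sd
  obtain ⟨R, _, _, _, _, _, _, u, hres, hO1a, hO1b, hO2⟩ :=
    ProRepB.exists_proRep_main 𝒪 (Lam 𝒪) (TT sd 𝒟) (TT_nonempty h𝒟 ρbar sd hbar)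
      (TT_finTest' ρbar sd) (fun I hI J hJ => TT_inf h𝒟 hI hJ)
      (fun I hI J hIJ hJ => TT_upward h𝒟 hI J hIJ hJ) (TT_finite_dualNumber h𝒟 hfinN)
  exact nonempty_deformationRingData_of_finiteUniversal ρbar 𝒟 habs h𝒟 sd
    (fun A _ _ _ _ _ M hs => slice_exists sd M hs)
    (fun A _ _ _ _ _ M M' hs hs' hn hn' P hP => slice_unique sd M M' hs hs' hn hn' P hP)
    R hres (UnivLift.Muniv u hO1b) (UnivLift.isNLift_Muniv u hO1b h𝒟 hres hO1a)
    (UnivLift.finiteUniversal_Muniv u hO1b h𝒟 hO1a hO2)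

end Fermat.Agent.S53
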