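-- Statement S55 (row 49): Poitou–Tate duality `Ш¹(M^∨(1)) × Ш²(M) → 𝔽_p` is perfect.
-- The statement below is byte-identical to the frozen statement groupCohomology.FermatFrozen.S55
-- (Fermat/Statements/S55.lean).  Proof: `BrauerAll.result_of_fields` (the formal part: Tate's
-- local duality, the devissage to `μ_p` and `ℤ/p`, and the arithmetic blocks) from the four global
-- inputs, all of them theorems of the team library:
--   (R)  reciprocity  `RecipFinal.recipField`        (sum of local invariants is zero),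
--   (HS) Hasse        `HasseFieldInst.hasseField`    (second inequality / Hasse principle),
--   (EX) existence    `BrauerExistFinal.existField`  (classes with prescribed local components),
--   (φ)  `H¹(G_{L,S}, E_S) ↪ Cl_S(L)`                `PhiFieldInst.phiField`.
import Fermat.Statements.S55
import Fermat.Agent.S55.GL.BrauerAll
import Fermat.Agent.S55.GL.RecipFinal
import Fermat.Agent.S55.GL.HasseFieldInst
import Fermat.Agent.S55.GL.BrauerExistFinal
import Fermat.Agent.S55.GL.PhiFieldInst

set_option autoImplicit false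
set_option autoImplicit false
open CategoryTheory Module groupCohomology ExtCitation
open groupCohomology

namespace Fermat.Agent.S55

theorem result
    {p : ℕ} [Fact p.Prime] (hp2 : p ≠ 2) (S : Finset Nat.Primes) (hpS : pPrime p ∈ S)
    (M : Rep (ZMod p) (AlgebraicClosure ℚ ≃ₐ[ℚ] AlgebraicClosure ℚ))
    [FiniteDimensional (ZMod p) M]
    (hsm : ∀ m : M, ∃ F : IntermediateField ℚ (AlgebraicClosure ℚ), FiniteDimensional ℚ F ∧
      ∀ s ∈ F.fixingSubgroup, M.ρ s m = m)
    (hMur : ∀ q : Nat.Primes, q ∉ S → ∀ A : ValuationSubring (AlgebraicClosure ℚ),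
      A.LiesOverPrime (q : ℕ) → ∀ g ∈ A.inertiaSubgroupIn ℚ, M.ρ g = 1) :
    ∃ B : sha₁ S (M.dualTwist (cycloChar p)) →ₗ[ZMod p] sha₂ S M →ₗ[ZMod p] ZMod p,
      (∀ y, (∀ x, B y x = 0) → y = 0) ∧ (∀ x, (∀ y, B y x = 0) → x = 0) := by
  exact Fermat.Agent.S55.GL.BrauerAll.result_of_fields hp2 hpS M hsm hMur
    (Fermat.Agent.S55.GL.RecipFinal.recipField p hp2 S)
    (Fermat.Agent.S55.GL.HasseFieldInst.hasseField p hp2 S hpS)
    (Fermat.Agent.S55.GL.BrauerExistFinal.existField hp2 hpS
      (Fermat.Agent.S55.GL.RecipFinal.recipField p hp2 S))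
    (Fermat.Agent.S55.GL.PhiFieldInst.phiField p S)

end Fermat.Agent.S55
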