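/-
S56 (row 50), Taylor–Wiles primes, both halves (strict-ordinary and flat): final assembly (helper10).

`Asm/Plug.result_of_local` (H5) applied to
* the local Euler characteristic formula at `p` (`Loc/EC/Main.hLEC`, block LEC),
* the flat condition of record `Flat/Bridge/Final.flSpan` with its lift-form membership
  (`Tan/SelmerFlatSpan.tangentAt_flSpan`) and its dimension bound
  (`Flat/Bridge/Plug.finrank_flSpan_add_le_local_of_charBounds`, blocks FL-A … FL-EF),
* the global Euler characteristic formula for `ad⁰ρ̄` (`GEC/MainAd0.hGEC`, block GEC),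
* Lemma H (`TW/HypHFinal.hypH`).
-/
import Fermat.Statements.S56
import Fermat.Agent.S56.Asm.Plug
import Fermat.Agent.S56.TW.HypHFinal
import Fermat.Agent.S56.Flat.Bridge.Plug
import Fermat.Agent.S56.Flat.Count.Final
import Fermat.Agent.S56.Tan.SelmerFlatSpan
import Fermat.Agent.S56.Loc.EC.Main
import Fermat.Agent.S56.GEC.MainAd0

set_option autoImplicit false
set_option autoImplicit false
open Polynomial IsLocalRing
open ResidualGaloisRep

namespace Fermat.Agent.S56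

theorem result
    {𝒪 : Type} [CommRing 𝒪] [IsDomain 𝒪] [IsDiscreteValuationRing 𝒪]
    [IsAdicComplete (maximalIdeal 𝒪) 𝒪] [Finite (ResidueField 𝒪)]
    (p : ℕ) [Fact p.Prime] (hp2 : p ≠ 2) (hp𝒪 : (p : 𝒪) ∈ maximalIdeal 𝒪)
    (ρbar : ResidualGaloisRep (ResidueField 𝒪))
    (habs : ρbar.IsAbsolutelyIrreducible)
    (hdet : (GaloisRepAdic.ofResidualGaloisRep ρbar).DetIsCyclotomic p)
    (hsplit : ∀ σ : AlgebraicClosure ℚ ≃ₐ[ℚ] AlgebraicClosure ℚ,
      ∃ α β : ResidueField 𝒪, LinearMap.charpoly (ρbar.ρ σ) = (X - C α) * (X - C β))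
    (hTW : ∀ (K : Type) [Field K] [Algebra (ResidueField 𝒪) K]
      (G : Subgroup (AlgebraicClosure ℚ ≃ₐ[ℚ] AlgebraicClosure ℚ)), G.index = 2 →
      ∀ V : Submodule K (ρbar.baseChange K).V,
        (∀ σ ∈ G, ∀ x ∈ V, (ρbar.baseChange K).ρ σ x ∈ V) → V = ⊥ ∨ V = ⊤)
    (S Smin : Finset ℕ) (hpSmin : p ∈ Smin) (hSmin : Smin ⊆ S) (hS : ∀ q ∈ S, q.Prime)
    (hmin : ∀ q : ℕ, q.Prime → q ≠ p → (q ∈ Smin ↔ ¬ ρbar.IsUnramifiedAt q)) :
    (∃ r : ℕ, ∀ n : ℕ, ∃ qv : Fin r → ℕ, Function.Injective qv ∧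
      (∀ i, (qv i).Prime ∧ qv i ∉ S ∧ p ^ (n + 1) ∣ qv i - 1) ∧
      (∀ i, ∀ P : ValuationSubring (AlgebraicClosure ℚ), P.LiesOverPrime (qv i) →
        ∀ φ : AlgebraicClosure ℚ ≃ₐ[ℚ] AlgebraicClosure ℚ, P.IsFrobeniusAt φ (qv i) →
          ∃ α β : ResidueField 𝒪, α ≠ β ∧ LinearMap.charpoly (ρbar.ρ φ) = (X - C α) * (X - C β)) ∧
      ∀ DQ : GaloisRep.DeformationRingData 𝒪 ρbar (fun _A _ _ _ ρ =>
          GaloisRep.strictOrdinaryCondition 𝒪 p (Smin ∪ Finset.univ.image qv) ρ ∧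
            ∀ q ∈ Smin, q.Prime → q ≠ p → ρ.IsUnipotentOnInertiaAt q),
        ∃ γ : MvPowerSeries (Fin r) 𝒪 →ₐ[𝒪] DQ.R, Function.Surjective γ) ∧
    (∃ r : ℕ, ∀ n : ℕ, ∃ qv : Fin r → ℕ, Function.Injective qv ∧
      (∀ i, (qv i).Prime ∧ qv i ∉ S ∧ p ^ (n + 1) ∣ qv i - 1) ∧
      (∀ i, ∀ P : ValuationSubring (AlgebraicClosure ℚ), P.LiesOverPrime (qv i) →
        ∀ φ : AlgebraicClosure ℚ ≃ₐ[ℚ] AlgebraicClosure ℚ, P.IsFrobeniusAt φ (qv i) →
          ∃ α β : ResidueField 𝒪, α ≠ β ∧ LinearMap.charpoly (ρbar.ρ φ) = (X - C α) * (X - C β)) ∧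
      ∀ DQ : GaloisRep.DeformationRingData 𝒪 ρbar (fun _A _ _ _ ρ =>
          GaloisRep.flatCondition 𝒪 p (Smin ∪ Finset.univ.image qv) ρ ∧
            ∀ q ∈ Smin, q.Prime → q ≠ p → ρ.IsUnipotentOnInertiaAt q),
        ∃ γ : MvPowerSeries (Fin r) 𝒪 →ₐ[𝒪] DQ.R, Function.Surjective γ) := by
  have hpk : ((p : ℕ) : ResidueField 𝒪) = 0 := by
    have := (IsLocalRing.residue_eq_zero_iff (p : 𝒪)).mpr hp𝒪
    rwa [map_natCast] at this
  haveI : CharP (ResidueField 𝒪) p := (CharP.charP_iff_prime_eq_zero Fact.out).mpr hpk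
  letI : Algebra (ZMod p) (ResidueField 𝒪) := ZMod.algebra _ p
  haveI : Module.Finite (ZMod p) (ResidueField 𝒪) := Module.Finite.of_finite
  have hM : ∀ q : Nat.Primes, Fermat.Agent.S55.Level.IsDiscrete
      (Fermat.Agent.S55.Level.localLevel (ExtCitation.primeLocalToGlobal q))
      (Rep.res (ExtCitation.primeLocalToGlobal q) (Fermat.Agent.S56.Ad.ad0 ρbar p)) := fun q =>
    Fermat.Agent.S56.Loc.MinimalPrime.isDiscrete_res_ad0 ρbar p (ExtCitation.primeLocalToGlobal q)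
  have hM' : ∀ q : Nat.Primes, Fermat.Agent.S55.Level.IsDiscrete
      (Fermat.Agent.S55.Level.localLevel (ExtCitation.primeLocalToGlobal q))
      (Rep.res (ExtCitation.primeLocalToGlobal q) (Fermat.Agent.S56.Ad.ad0' ρbar p)) := fun q =>
    Fermat.Agent.S56.Loc.MinimalPrime.isDiscrete_res_ad0' ρbar p (ExtCitation.primeLocalToGlobal q)
  have h2k : (2 : ResidueField 𝒪) ≠ 0 := by
    intro h
    have h2 : ((2 : ℕ) : ResidueField 𝒪) = 0 := by exact_mod_cast h
    have hdvd := (CharP.cast_eq_zero_iff (ResidueField 𝒪) p 2).1 h2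
    have := (Fact.out : p.Prime).two_le
    have := Nat.le_of_dvd (by norm_num) hdvd
    omega
  -- the local Euler characteristic formula at `p` (block LEC)
  have hLEC : ∀ (Y : Rep (ZMod p) (ExtCitation.primeLocalGaloisGroup (ExtCitation.pPrime p)))
      [Fermat.Agent.S55.Level.IsDiscrete (Fermat.Agent.S55.Level.localLevel
        (ExtCitation.primeLocalToGlobal (ExtCitation.pPrime p))) Y] [FiniteDimensional (ZMod p) Y],
      Module.finrank (ZMod p) (Fermat.Agent.S55.Level.levelCohomology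
          (Fermat.Agent.S55.Level.localLevel
            (ExtCitation.primeLocalToGlobal (ExtCitation.pPrime p))) Y 1)
        = Module.finrank (ZMod p) Y
          + Module.finrank (ZMod p) (Fermat.Agent.S55.Level.levelCohomology
              (Fermat.Agent.S55.Level.localLevel
                (ExtCitation.primeLocalToGlobal (ExtCitation.pPrime p))) Y 0)
          + Module.finrank (ZMod p) (Fermat.Agent.S55.Level.levelCohomology
              (Fermat.Agent.S55.Level.localLevel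
                (ExtCitation.primeLocalToGlobal (ExtCitation.pPrime p))) Y 2) :=
    fun Y _ _ => Fermat.Agent.S56.Loc.EC.Main.hLEC hp2 Y
  -- the two one-character bounds of the flat block (FL-C)
  have hA : ∀ (L : IntermediateField ℚ_[p] (PadicAlgCl p))
      (hL : L ∈ Fermat.Agent.S56.Flat.Bridge.Compositum.flatFamily p
        (Fermat.Agent.S56.Flat.Bridge.Member.trivSubgroup ρbar p))
      [FiniteDimensional ℚ_[p] L] [IsGalois ℚ_[p] L],
      Fermat.Agent.S56.Flat.Count.Main.CharBoundA L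
        (Fermat.Agent.S56.Flat.Count.Main.detChar
          (Fermat.Agent.S56.Flat.Bridge.Transport.rhoL hL)) :=
    fun L hL _ _ => Fermat.Agent.S56.Flat.Count.Final.charBoundA_rhoL hL hp2 hdet
  have hB : Fermat.Agent.S56.Flat.Count.Main.IsIrredAtP ρbar p →
      ∀ (L : IntermediateField ℚ_[p] (PadicAlgCl p))
      (hL : L ∈ Fermat.Agent.S56.Flat.Bridge.Compositum.flatFamily p
        (Fermat.Agent.S56.Flat.Bridge.Member.trivSubgroup ρbar p))
      [FiniteDimensional ℚ_[p] L] [IsGalois ℚ_[p] L],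
      Fermat.Agent.S56.Flat.Count.Main.CharBoundB L
        (Fermat.Agent.S56.Flat.Count.Main.detChar
          (Fermat.Agent.S56.Flat.Bridge.Transport.rhoL hL)) :=
    fun _ L hL _ _ => Fermat.Agent.S56.Flat.Count.Final.charBoundB_rhoL hL hp2 hdet
  exact Fermat.Agent.S56.Asm.Plug.result_of_local p ρbar Smin hp2 hp𝒪 habs hdet hsplit hTW S
    hpSmin hSmin hmin hpk hLEC
    (@Fermat.Agent.S56.Flat.Bridge.Final.flSpan (ResidueField 𝒪) _ ρbar p _ _ hpk
      (Fermat.Agent.S55.Level.localLevel (ExtCitation.primeLocalToGlobal (ExtCitation.pPrime p)))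
      (hM (ExtCitation.pPrime p)))
    (Fermat.Agent.S56.Tan.SelmerFlatSpan.tangentAt_flSpan ρbar p hpk)
    (Fermat.Agent.S56.Flat.Bridge.Plug.finrank_flSpan_add_le_local_of_charBounds hA hB hpk hp2 h2k
      hsplit hdet hLEC)
    (Fermat.Agent.S56.GEC.MainAd0.hGEC ρbar p hp2 hdet)
    (Fermat.Agent.S56.TW.HypHFinal.hypH ρbar p hp2 habs hsplit hdet)

end Fermat.Agent.S56
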