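-- Statement S57: patching, descent step (freeness criterion at one level with trivial relation ideal).
import Fermat.Statements.S57
import Fermat.Agent.S57.Wiring

set_option autoImplicit false
open Algebra Algebra.PatchingLevel

namespace Fermat.Agent.S57

theorem result
    {𝒪 : Type} [CommRing 𝒪] [IsDomain 𝒪] [IsDiscreteValuationRing 𝒪]
    {r : ℕ} {R : Type} [CommRing R] [Algebra 𝒪 R]
    {M : Type} [AddCommGroup M] [Module R M] [Nontrivial M]
    (L : Algebra.PatchingLevel 𝒪 r R M ⊥) :
    Module.Free R M ∧ Module.annihilator R M = ⊥ ∧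
      RingHom.ker L.ψ = Ideal.span (Set.range fun i : Fin r => L.φ (MvPowerSeries.X i)) := by
  have hfree := free_N L
  have hI : Ideal.span (Set.range fun i : Fin r => L.φ (MvPowerSeries.X i)) ≤
      RingHom.ker (L.ψ : MvPowerSeries (Fin r) 𝒪 →+* R) := by
    rw [Ideal.span_le]
    rintro _ ⟨i, rfl⟩
    exact L.ψ_φ_X i
  exact descent_wiring (L.ψ : MvPowerSeries (Fin r) 𝒪 →+* R) L.ψ_surjective _ hI L.π
    L.π_smul L.π_surjective L.ker_π

end Fermat.Agent.S57
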